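import Fermat.Agent.A3.H799.LocalSpec
import Fermat.Agent.Lib.RR.H638.NonSpecial
import Fermat.Agent.Lib.RR.H623.WeakApprox

/-!
# A3 / LOCAL, leaf COORD (helper255): the kernel of reduction is the polydisc `(𝔪_V)^g`

`coordStatement : CoordStatement K F k Fk` (frozen leaf of `A3/H799/LocalSpec.lean`).

Proof.  Let `E = polyDiv d 0`, `Ē = Σ Q_i = r_* E`, `ℓ_k(Ē) = 1`.
* existence: `x = [D₀]`, `r_* D₀ = div φ`.  Riemann on `F` gives `f ≠ 0` in `L(D₀ + E)`
  (`deg = g`, equal genus); normalise `f` by `gauss`; then `D' = D₀ + E + div f ≥ 0` and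
  `r_* D' = Ē + div (φ · red f)` is effective, so `φ · red f ∈ L_k(Ē) = k`, `r_* D' = Ē`.  Hence
  over every `Q_i` there is a point `P_i` of `D'`; `D' - Σ P_i ≥ 0` has degree `0`, so
  `D' = Σ P_i`, and `P_i = pt_i (z_i)` by `pt_surj`.
* uniqueness: semicontinuity `ℓ(D) ≤ ℓ_k(r_* D)` (from `orthonormal` + `div_red`) gives
  `ℓ(polyDiv d z) = 1`, so linearly equivalent polydisc divisors are equal; `pt_i` is injective
  by `ev_spec` for the parameter `t`.
* the converse is `r_* (polyDiv d z - polyDiv d 0) = 0`.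

All proofs complete.
-/

set_option autoImplicit false
set_option linter.style.haveILetI false

noncomputable section

open AlgebraicCurve

namespace Fermat.Agent.A3.H255

open Fermat.Agent.Lib.RR Fermat.Agent.A3.H799

/-! ### Generalities on `Finsupp.mapDomain` -/

section MapDomain

variable {α β : Type*}

open scoped Classical in
theorem mapDomain_apply_eq_sum (r : α → β) (D : α →₀ ℤ) (b : β) :
    Finsupp.mapDomain r D b = ∑ a ∈ D.support, if r a = b then D a else 0 := by
  rw [Finsupp.mapDomain, Finsupp.sum_apply, Finsupp.sum]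
  refine Finset.sum_congr rfl fun a _ => ?_
  rw [Finsupp.single_apply]

theorem mapDomain_nonneg (r : α → β) {D : α →₀ ℤ} (hD : 0 ≤ D) :
    0 ≤ Finsupp.mapDomain r D := by
  classical
  rw [Finsupp.le_def]
  intro b
  rw [mapDomain_apply_eq_sum]
  refine Finset.sum_nonneg fun a _ => ?_
  have := Finsupp.le_def.mp hD a
  split_ifs
  · simpa using this
  · exact le_rfl

theorem exists_of_mapDomain_ne_zero (r : α → β) {D : α →₀ ℤ} {b : β}
    (h : Finsupp.mapDomain r D b ≠ 0) : ∃ a, r a = b ∧ D a ≠ 0 := by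
  classical
  by_contra hcon
  push Not at hcon
  apply h
  rw [mapDomain_apply_eq_sum]
  refine Finset.sum_eq_zero fun a _ => ?_
  split_ifs with hab
  · exact hcon a hab
  · rfl

theorem mapDomain_sub' (r : α → β) (D D' : α →₀ ℤ) :
    Finsupp.mapDomain r (D - D') = Finsupp.mapDomain r D - Finsupp.mapDomain r D' := by
  rw [← Finsupp.mapDomain.addMonoidHom_apply, map_sub, Finsupp.mapDomain.addMonoidHom_apply,
    Finsupp.mapDomain.addMonoidHom_apply]

theorem mapDomain_sum_single {ι : Type*} [Fintype ι] (r : α → β) (P : ι → α) :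
    Finsupp.mapDomain r (∑ i, Finsupp.single (P i) (1 : ℤ)) =
      ∑ i, Finsupp.single (r (P i)) (1 : ℤ) := by
  rw [Finsupp.mapDomain_finsetSum]
  refine Finset.sum_congr rfl fun i _ => ?_
  rw [Finsupp.mapDomain_single]

theorem sum_single_apply_of_injective {ι : Type*} [Fintype ι] {P : ι → α}
    (hP : Function.Injective P) (i : ι) :
    (∑ j, Finsupp.single (P j) (1 : ℤ)) (P i) = 1 := by
  classical
  rw [Finsupp.finsetSum_apply]
  simp only [Finsupp.single_apply]
  rw [Finset.sum_eq_single i]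
  · simp
  · intro j _ hji
    rw [if_neg]
    exact fun h => hji (hP h)
  · intro h
    exact absurd (Finset.mem_univ i) h

theorem sum_single_apply_of_forall_ne {ι : Type*} [Fintype ι] {P : ι → α} {a : α}
    (h : ∀ i, P i ≠ a) : (∑ j, Finsupp.single (P j) (1 : ℤ)) a = 0 := by
  classical
  rw [Finsupp.finsetSum_apply]
  refine Finset.sum_eq_zero fun j _ => ?_
  rw [Finsupp.single_apply, if_neg (h j)]

theorem sum_single_nonneg {ι : Type*} [Fintype ι] (P : ι → α) :
    (0 : α →₀ ℤ) ≤ ∑ j, Finsupp.single (P j) (1 : ℤ) := by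
  classical
  rw [Finsupp.le_def]
  intro a
  rw [Finsupp.finsetSum_apply]
  refine Finset.sum_nonneg fun j _ => ?_
  rw [Finsupp.single_apply]
  split_ifs <;> simp

theorem one_le_sum_single_apply {ι : Type*} [Fintype ι] (P : ι → α) (i : ι) :
    1 ≤ (∑ j, Finsupp.single (P j) (1 : ℤ)) (P i) := by
  classical
  rw [Finsupp.finsetSum_apply]
  have h1 : (Finsupp.single (P i) (1 : ℤ)) (P i) ≤
      ∑ j, (Finsupp.single (P j) (1 : ℤ)) (P i) := by
    refine Finset.single_le_sum (f := fun j => (Finsupp.single (P j) (1 : ℤ)) (P i))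
      (fun j _ => ?_) (Finset.mem_univ i)
    show 0 ≤ (Finsupp.single (P j) (1 : ℤ)) (P i)
    rw [Finsupp.single_apply]
    split_ifs <;> simp
  simpa using h1

end MapDomain

variable {K F k Fk : Type*} [Field K] [Field F] [Algebra K F] [Field k] [Field Fk] [Algebra k Fk]

/-! ### Divisors of degree zero -/

/-- An effective divisor of degree `0` is `0`. -/
theorem eq_zero_of_nonneg_of_degree_eq_zero [FF1 K F] {D : Divisor K F} (hD : 0 ≤ D)
    (hdeg : Divisor.degree D = 0) : D = 0 := by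
  rw [degree_eq_sum] at hdeg
  have h0 : ∀ v ∈ D.support, D v * (v.deg : ℤ) = 0 := by
    refine (Finset.sum_eq_zero_iff_of_nonneg fun v _ => ?_).mp hdeg
    have := Finsupp.le_def.mp hD v
    rw [deg_eq_one v]
    simpa using this
  ext v
  by_cases hv : v ∈ D.support
  · have := h0 v hv
    rw [deg_eq_one v] at this
    simpa using this
  · simpa using Finsupp.notMem_support_iff.mp hv

theorem degree_sum_single [FF1 K F] {ι : Type*} [Fintype ι] (P : ι → Place K F) :
    Divisor.degree (∑ i, Finsupp.single (P i) (1 : ℤ)) = Fintype.card ι := by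
  rw [map_sum]
  simp only [Divisor.degree_single, deg_eq_one, Nat.cast_one, mul_one]
  simp

/-! ### Reduction of principal divisors and semicontinuity -/

/-- Push-forward of the divisor of a function of norm one. -/
theorem mapDomain_divOf (𝓡 : GoodRed K F k Fk) (f : 𝓡.O) (hred : 𝓡.red f ≠ 0)
    (D : Divisor K F) (hD : ∀ P : Place K F, D P = P.ord (f : F)) (Q : Place k Fk) :
    Finsupp.mapDomain 𝓡.r D Q = Q.ord (𝓡.red f) :=
  𝓡.div_red f hred D hD Q

/-- If `f ∈ L(D)` has norm one, then `red f ∈ L_k(r_* D)`. -/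
theorem red_mem_L (𝓡 : GoodRed K F k Fk) (D : Divisor K F) (f : 𝓡.O) (hred : 𝓡.red f ≠ 0)
    (hf : (f : F) ∈ riemannRochSpace D) :
    𝓡.red f ∈ riemannRochSpace (Finsupp.mapDomain 𝓡.r D) := by
  haveI := 𝓡.ff1
  have hf0 : (f : F) ≠ 0 := by
    intro h
    apply hred
    have : f = 0 := Subtype.ext h
    rw [this, map_zero]
  rw [mem_L_iff]
  intro Q
  right
  have h1 := mapDomain_divOf 𝓡 f hred (divOf (K := K) (f : F) hf0)
    (fun P => divOf_apply _ _ P) Q
  have h2 : (0 : Divisor K F) ≤ D + divOf (K := K) (f : F) hf0 := by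
    rw [Finsupp.le_def]
    intro P
    have := (mem_L_iff.mp hf P).resolve_left hf0
    simp only [Finsupp.coe_zero, Pi.zero_apply, Finsupp.coe_add, Pi.add_apply, divOf_apply]
    omega
  have h3 := Finsupp.le_def.mp (mapDomain_nonneg 𝓡.r h2) Q
  rw [Finsupp.mapDomain_add] at h3
  simp only [Finsupp.coe_zero, Pi.zero_apply, Finsupp.coe_add, Pi.add_apply] at h3
  omega

/-- **Semicontinuity**: `ℓ(D) ≤ ℓ_k(r_* D)`. -/
theorem ell_le_ell_mapDomain (𝓡 : GoodRed K F k Fk) (D : Divisor K F) :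
    ell D ≤ ell (Finsupp.mapDomain 𝓡.r D) := by
  haveI := 𝓡.ff1
  haveI := 𝓡.ff1k
  obtain ⟨n, b, hli, hmem, hspan, -⟩ := 𝓡.orthonormal D
  have h1 : ell D ≤ n := by
    unfold ell
    rw [← hspan]
    have := finrank_range_le_card (R := K) (fun i => ((b i : 𝓡.O) : F))
    simpa [Set.finrank] using this
  have h2 : n ≤ ell (Finsupp.mapDomain 𝓡.r D) := by
    have hmemk : ∀ i, 𝓡.red (b i) ∈ riemannRochSpace (Finsupp.mapDomain 𝓡.r D) :=
      fun i => red_mem_L 𝓡 D (b i) (hli.ne_zero i) (hmem i)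
    let c : Fin n → riemannRochSpace (Finsupp.mapDomain 𝓡.r D) :=
      fun i => ⟨𝓡.red (b i), hmemk i⟩
    have hc : LinearIndependent k c := by
      apply LinearIndependent.of_comp (riemannRochSpace (Finsupp.mapDomain 𝓡.r D)).subtype
      exact hli
    have := hc.fintype_card_le_finrank
    simpa [ell] using this
  exact h1.trans h2

/-! ### The polydisc divisors -/

section Poly

variable {𝓡 : GoodRed K F k Fk} {ι : Type*} [Fintype ι] {Qs : ι → Place k Fk}

theorem mapDomain_polyDiv (d : ∀ i, DiscData 𝓡 (Qs i))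
    (z : ι → IsLocalRing.maximalIdeal 𝓡.V) :
    Finsupp.mapDomain 𝓡.r (polyDiv d z) = ∑ i, Finsupp.single (Qs i) (1 : ℤ) := by
  unfold polyDiv
  rw [mapDomain_sum_single]
  refine Finset.sum_congr rfl fun i _ => ?_
  rw [(d i).r_pt]

theorem polyDiv_nonneg (d : ∀ i, DiscData 𝓡 (Qs i))
    (z : ι → IsLocalRing.maximalIdeal 𝓡.V) : 0 ≤ polyDiv d z :=
  sum_single_nonneg _

theorem degree_polyDiv (d : ∀ i, DiscData 𝓡 (Qs i))
    (z : ι → IsLocalRing.maximalIdeal 𝓡.V) :
    Divisor.degree (polyDiv d z) = Fintype.card ι := by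
  haveI := 𝓡.ff1
  exact degree_sum_single _

/-- The points of a disc are determined by their parameter values. -/
theorem pt_injective {Q : Place k Fk} (d : DiscData 𝓡 Q) : Function.Injective d.pt := by
  intro a a' h
  have h1 := d.ev_spec a d.D.t
  have h2 := d.ev_spec a' d.D.t
  rw [d.D.ev_t] at h1 h2
  rw [← h] at h2
  have b1 : H623.Big (d.pt a) 1 (((d.D.t : d.ring) : F) - algebraMap K F ((a : 𝓡.V) : K)) := by
    rcases h1 with h1 | h1
    · left; rw [h1, sub_self]
    · exact Or.inr h1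
  have b2 : H623.Big (d.pt a) 1 (((d.D.t : d.ring) : F) - algebraMap K F ((a' : 𝓡.V) : K)) := by
    rcases h2 with h2 | h2
    · left; rw [h2, sub_self]
    · exact Or.inr h2
  have b3 := b2.sub b1
  have e : ((d.D.t : d.ring) : F) - algebraMap K F ((a' : 𝓡.V) : K) -
      (((d.D.t : d.ring) : F) - algebraMap K F ((a : 𝓡.V) : K)) =
      algebraMap K F (((a : 𝓡.V) : K) - ((a' : 𝓡.V) : K)) := by
    rw [map_sub]; ring
  rw [e] at b3
  rcases b3 with h0 | h0
  · have : ((a : 𝓡.V) : K) - ((a' : 𝓡.V) : K) = 0 :=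
      (map_eq_zero (algebraMap K F)).mp h0
    exact Subtype.ext (Subtype.ext (sub_eq_zero.mp this))
  · rw [ord_algebraMap] at h0
    omega

/-- Equal polydisc divisors have equal parameters. -/
theorem polyDiv_injective (hQs : Function.Injective Qs) (d : ∀ i, DiscData 𝓡 (Qs i))
    {z z' : ι → IsLocalRing.maximalIdeal 𝓡.V} (h : polyDiv d z = polyDiv d z') : z = z' := by
  funext i
  apply pt_injective (d i)
  by_contra hne
  have h1 : 1 ≤ (polyDiv d z) ((d i).pt (z i)) :=
    one_le_sum_single_apply (fun j => (d j).pt (z j)) i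
  have h2 : (polyDiv d z') ((d i).pt (z i)) = 0 := by
    apply sum_single_apply_of_forall_ne
    intro j hj
    have hr : Qs j = Qs i := by rw [← (d j).r_pt (z' j), hj, (d i).r_pt]
    have hji : j = i := hQs hr
    subst hji
    exact hne hj.symm
  rw [h, h2] at h1
  omega

end Poly

/-! ### The leaf -/

section Leaf

variable (𝓡 : GoodRed K F k Fk) (Qs : Fin (genusFF k Fk) → Place k Fk)
  (hQs : Function.Injective Qs)
  (hell : @Lib.RR.ell k Fk _ _ _ (∑ i, Finsupp.single (Qs i) (1 : ℤ)) = 1)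
  (d : ∀ i, DiscData 𝓡 (Qs i))

include hell in
/-- `ℓ(polyDiv d z) = 1`. -/
theorem ell_polyDiv (z : Fin (genusFF k Fk) → IsLocalRing.maximalIdeal 𝓡.V) :
    ell (polyDiv d z) = 1 := by
  haveI := 𝓡.ff1
  have h1 := ell_le_ell_mapDomain 𝓡 (polyDiv d z)
  rw [mapDomain_polyDiv, hell] at h1
  have h2 : ell (0 : Divisor K F) ≤ ell (polyDiv d z) := ell_mono (polyDiv_nonneg d z)
  rw [ell_zero] at h2
  omega

/-- The converse direction: polydisc classes lie in the kernel of reduction. -/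
theorem mem_kerRed_of_polyDiv (z : Fin (genusFF k Fk) → IsLocalRing.maximalIdeal 𝓡.V)
    (D : Divisor.degZero (K := K) (F := F))
    (hD : (D : Divisor K F) = polyDiv d z - polyDiv d 0) : Pic0.mk D ∈ 𝓡.kerRed := by
  refine ⟨D, rfl, ?_⟩
  rw [hD, mapDomain_sub', mapDomain_polyDiv, mapDomain_polyDiv, sub_self]
  exact zero_mem _

include hQs hell in
/-- Uniqueness of the polydisc point. -/
theorem polyDiv_unique {z z' : Fin (genusFF k Fk) → IsLocalRing.maximalIdeal 𝓡.V}
    (h : polyDiv d z' - polyDiv d z ∈ Divisor.principal (K := K) (F := F)) : z = z' := by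
  haveI := 𝓡.ff1
  obtain ⟨u, hu0, hu⟩ := h
  have huL : u ∈ riemannRochSpace (polyDiv d z) := by
    rw [mem_L_iff]
    intro P
    right
    have h1 := hu P
    have h2 := Finsupp.le_def.mp (polyDiv_nonneg d z') P
    simp only [Finsupp.coe_sub, Pi.sub_apply, Finsupp.coe_zero, Pi.zero_apply] at h1 h2
    omega
  have hL := H638.L_eq_range_of_ell_eq_one (polyDiv_nonneg d z) (ell_polyDiv 𝓡 Qs hell d z)
  rw [hL] at huL
  obtain ⟨c, hc⟩ := huL
  have hc' : u = algebraMap K F c := hc.symm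
  apply polyDiv_injective hQs d
  ext P
  have h1 := hu P
  rw [hc', ord_algebraMap] at h1
  simp only [Finsupp.coe_sub, Pi.sub_apply] at h1
  omega

include hQs hell in
/-- Existence of the polydisc point. -/
theorem exists_polyDiv (x : Pic0 K F) (hx : x ∈ 𝓡.kerRed) :
    ∃ z : Fin (genusFF k Fk) → IsLocalRing.maximalIdeal 𝓡.V,
      ∃ D : Divisor.degZero (K := K) (F := F),
        (D : Divisor K F) = polyDiv d z - polyDiv d 0 ∧ Pic0.mk D = x := by
  haveI := 𝓡.ff1
  haveI := 𝓡.ff1k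
  obtain ⟨D₀, rfl, φ, hφ0, hφ⟩ := hx
  have hD₀ : Divisor.degree (D₀ : Divisor K F) = 0 := D₀.2
  -- a nonzero function in `L(D₀ + E)`
  have hdeg : (genusFF K F : ℤ) ≤ Divisor.degree ((D₀ : Divisor K F) + polyDiv d 0) := by
    rw [map_add, hD₀, degree_polyDiv, 𝓡.genus_eq]
    simp
  have h1 := riemann_inequality_genusFF (K := K) (F := F) ((D₀ : Divisor K F) + polyDiv d 0)
  have hpos : 0 < Module.finrank K (riemannRochSpace ((D₀ : Divisor K F) + polyDiv d 0)) := by
    have h2 : Module.finrank K (riemannRochSpace ((D₀ : Divisor K F) + polyDiv d 0)) =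
        ell ((D₀ : Divisor K F) + polyDiv d 0) := rfl
    have : (0 : ℤ) < (ell ((D₀ : Divisor K F) + polyDiv d 0) : ℤ) := by omega
    rw [h2]
    exact_mod_cast this
  obtain ⟨f₀, hf₀⟩ := Module.finrank_pos_iff_exists_ne_zero.mp hpos
  have hf₀F : (f₀ : F) ≠ 0 := fun h => hf₀ (Subtype.ext h)
  -- normalise
  obtain ⟨a, ha0, hmem, hred⟩ := 𝓡.gauss (f₀ : F) hf₀F
  have haF : algebraMap K F a ≠ 0 := (map_ne_zero (algebraMap K F)).mpr ha0
  have hf0 : algebraMap K F a * (f₀ : F) ≠ 0 := mul_ne_zero haF hf₀F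
  have hord : ∀ P : Place K F, P.ord (algebraMap K F a * (f₀ : F)) = P.ord (f₀ : F) := by
    intro P
    rw [P.ord_mul haF hf₀F, ord_algebraMap, zero_add]
  set Df : Divisor K F := divOf (K := K) (algebraMap K F a * (f₀ : F)) hf0 with hDf
  set D' : Divisor K F := (D₀ : Divisor K F) + polyDiv d 0 + Df with hD'
  have hD'0 : 0 ≤ D' := by
    rw [Finsupp.le_def]
    intro P
    have := (mem_L_iff.mp f₀.2 P).resolve_left hf₀F
    simp only [hD', hDf, Finsupp.coe_zero, Pi.zero_apply, Finsupp.coe_add, Pi.add_apply,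
      divOf_apply, hord] at this ⊢
    omega
  have hrDf : ∀ Q : Place k Fk, Finsupp.mapDomain 𝓡.r Df Q =
      Q.ord (𝓡.red ⟨algebraMap K F a * (f₀ : F), hmem⟩) :=
    fun Q => mapDomain_divOf 𝓡 ⟨_, hmem⟩ hred Df (fun P => divOf_apply _ _ P) Q
  have hrD' : ∀ Q : Place k Fk, Finsupp.mapDomain 𝓡.r D' Q =
      Q.ord φ + (∑ i, Finsupp.single (Qs i) (1 : ℤ)) Q +
        Q.ord (𝓡.red ⟨algebraMap K F a * (f₀ : F), hmem⟩) := by
    intro Q
    rw [hD', Finsupp.mapDomain_add, Finsupp.mapDomain_add, mapDomain_polyDiv]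
    simp only [Finsupp.coe_add, Pi.add_apply]
    rw [hrDf Q, hφ Q]
  -- `φ · red f` is a constant
  have hcL : φ * 𝓡.red ⟨algebraMap K F a * (f₀ : F), hmem⟩ ∈
      riemannRochSpace (∑ i, Finsupp.single (Qs i) (1 : ℤ)) := by
    rw [mem_L_iff]
    intro Q
    right
    rw [Q.ord_mul hφ0 hred]
    have h3 := Finsupp.le_def.mp (mapDomain_nonneg 𝓡.r hD'0) Q
    rw [hrD' Q] at h3
    simp only [Finsupp.coe_zero, Pi.zero_apply] at h3
    omega
  rw [H638.L_eq_range_of_ell_eq_one (sum_single_nonneg _) hell] at hcL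
  obtain ⟨c, hc⟩ := hcL
  have hc0 : c ≠ 0 := by
    intro h0
    have hc' : algebraMap k Fk c = φ * 𝓡.red ⟨algebraMap K F a * (f₀ : F), hmem⟩ := hc
    rw [h0, map_zero] at hc'
    exact mul_ne_zero hφ0 hred hc'.symm
  have hsum0 : ∀ Q : Place k Fk,
      Q.ord φ + Q.ord (𝓡.red ⟨algebraMap K F a * (f₀ : F), hmem⟩) = 0 := by
    intro Q
    rw [← Q.ord_mul hφ0 hred]
    have hc' : algebraMap k Fk c = φ * 𝓡.red ⟨algebraMap K F a * (f₀ : F), hmem⟩ := hc
    rw [← hc', ord_algebraMap]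
  -- a point of `D'` over every `Q_i`
  have hP : ∀ i, ∃ P : Place K F, 𝓡.r P = Qs i ∧ 1 ≤ D' P := by
    intro i
    have h3 : Finsupp.mapDomain 𝓡.r D' (Qs i) ≠ 0 := by
      rw [hrD' (Qs i)]
      have := one_le_sum_single_apply Qs i
      have := hsum0 (Qs i)
      omega
    obtain ⟨P, hP1, hP2⟩ := exists_of_mapDomain_ne_zero 𝓡.r h3
    refine ⟨P, hP1, ?_⟩
    have := Finsupp.le_def.mp hD'0 P
    simp only [Finsupp.coe_zero, Pi.zero_apply] at this
    omega
  choose P hPr hPD using hP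
  have hPinj : Function.Injective P := fun i j h => hQs (by rw [← hPr i, ← hPr j, h])
  -- `D' = Σ P_i`
  have hD'eq : D' = ∑ i, Finsupp.single (P i) (1 : ℤ) := by
    have hnn : 0 ≤ D' - ∑ i, Finsupp.single (P i) (1 : ℤ) := by
      rw [Finsupp.le_def]
      intro P'
      simp only [Finsupp.coe_zero, Pi.zero_apply, Finsupp.coe_sub, Pi.sub_apply]
      by_cases hex : ∃ i, P i = P'
      · obtain ⟨i, rfl⟩ := hex
        rw [sum_single_apply_of_injective hPinj i]
        have := hPD i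
        omega
      · push Not at hex
        rw [sum_single_apply_of_forall_ne hex]
        have := Finsupp.le_def.mp hD'0 P'
        simpa using this
    have hdeg0 : Divisor.degree (D' - ∑ i, Finsupp.single (P i) (1 : ℤ)) = 0 := by
      rw [map_sub, degree_sum_single, hD', map_add, map_add, hD₀, degree_polyDiv, hDf,
        degree_divOf]
      simp
    have := eq_zero_of_nonneg_of_degree_eq_zero hnn hdeg0
    exact sub_eq_zero.mp this
  -- the parameters
  have hz : ∀ i, ∃ b, (d i).pt b = P i := fun i => (d i).pt_surj (P i) (hPr i)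
  choose z hz using hz
  have hpoly : polyDiv d z = D' := by
    rw [hD'eq]
    unfold polyDiv
    refine Finset.sum_congr rfl fun i _ => ?_
    rw [hz i]
  have hdegz : Divisor.degree (polyDiv d z - polyDiv d 0) = 0 := by
    rw [map_sub, degree_polyDiv, degree_polyDiv, sub_self]
  refine ⟨z, ⟨polyDiv d z - polyDiv d 0, hdegz⟩, rfl, ?_⟩
  -- the class
  show (QuotientAddGroup.mk _ : Pic0 K F) = QuotientAddGroup.mk _
  rw [QuotientAddGroup.eq, AddSubgroup.mem_addSubgroupOf]
  refine ⟨(algebraMap K F a * (f₀ : F))⁻¹, inv_ne_zero hf0, fun v => ?_⟩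
  rw [v.ord_inv]
  have e : (((-(⟨polyDiv d z - polyDiv d 0, hdegz⟩ : Divisor.degZero (K := K) (F := F)) + D₀ :
      Divisor.degZero (K := K) (F := F)) : Divisor K F)) =
      -(polyDiv d z - polyDiv d 0) + (D₀ : Divisor K F) := rfl
  rw [e, hpoly, hD']
  simp only [Finsupp.coe_add, Finsupp.coe_neg, Finsupp.coe_sub, Pi.add_apply, Pi.neg_apply,
    Pi.sub_apply, hDf, divOf_apply]
  ring

end Leaf

/-- **COORD**: the frozen leaf `CoordStatement` of `A3/H799/LocalSpec.lean`. -/
theorem coordStatement : CoordStatement K F k Fk := by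
  intro 𝓡 Qs hQs hell d
  refine ⟨fun x hx => ?_, fun z D hD => mem_kerRed_of_polyDiv 𝓡 Qs d z D hD⟩
  obtain ⟨z, D, hD, hDx⟩ := exists_polyDiv 𝓡 Qs hQs hell d x hx
  refine ⟨z, ⟨D, hD, hDx⟩, ?_⟩
  rintro z' ⟨D', hD', hD'x⟩
  symm
  apply polyDiv_unique 𝓡 Qs hQs hell d
  -- `D' - D` is principal
  have h1 : Pic0.mk D = Pic0.mk D' := by rw [hDx, hD'x]
  have h2 : (QuotientAddGroup.mk D : Pic0 K F) = QuotientAddGroup.mk D' := h1
  rw [QuotientAddGroup.eq, AddSubgroup.mem_addSubgroupOf] at h2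
  have e : ((-D + D' : Divisor.degZero (K := K) (F := F)) : Divisor K F) =
      polyDiv d z' - polyDiv d z := by
    show -(D : Divisor K F) + (D' : Divisor K F) = _
    rw [hD, hD']
    abel
  rwa [e] at h2

end Fermat.Agent.A3.H255
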