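import Fermat.Agent.A3.H799.LocalSpec2
import Fermat.Agent.A3.H799.DiscLemmas
import Fermat.Agent.A3.H255.Coord

/-!
# A3 / LOCAL, leaf GEO (helper255): the section through the moving points has exactly one
further zero in each disc

`geoStatement : GeoStatement K F k Fk` (frozen leaf of `A3/H799/LocalSpec2.lean`).

Proof.  `E = polyDiv d 0`, `D_r = polyDiv d (zs r)`, `D_w = polyDiv d zw`,
`div ψ = Σ D_r + D_w - (s+1) E`.
* `G_i = t_i^{s+1} φ = ∏_r (t_i - zs r i) · h_i` with `h_i` regular on the disc gives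
  `φ ∈ L((s+1) E - Σ D_r)`, so `φ / ψ ∈ L(D_w) = K` (`ℓ(D_w) = 1`, leaf COORD), i.e.
  `div φ = div ψ`.
* Hence `ord h_i = 1` at `pt_i (zw i)`, so `h_i = (t_i - zw i) · u` in the disc ring.
* Reduction: `t̄^{s+1} = t̄^s · t̄ · red u`, so `red u = 1` and `ev u` is a unit (`red_ev`).

All proofs complete.
-/

set_option autoImplicit false
set_option linter.style.haveILetI false

noncomputable section

open AlgebraicCurve

namespace Fermat.Agent.A3.H255.Geo

open Fermat.Agent.Lib.RR Fermat.Agent.A3.H799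

variable {K F k Fk : Type*} [Field K] [Field F] [Algebra K F] [Field k] [Field Fk] [Algebra k Fk]

section Disc

variable {𝓡 : GoodRed K F k Fk} {Q : Place k Fk} (d : DiscData 𝓡 Q)

theorem aeval_nodal_cons' (a : IsLocalRing.maximalIdeal 𝓡.V)
    (l : List (IsLocalRing.maximalIdeal 𝓡.V)) :
    Polynomial.aeval d.D.t (DiscAlg.nodal (a :: l)) =
      d.tSub a * Polynomial.aeval d.D.t (DiscAlg.nodal l) :=
  d.D.aeval_nodal_cons a l

theorem coe_aeval_nodal_ne_zero (l : List (IsLocalRing.maximalIdeal 𝓡.V)) :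
    ((Polynomial.aeval d.D.t (DiscAlg.nodal l) : d.ring) : F) ≠ 0 := by
  induction l with
  | nil => simp
  | cons a l ih =>
    rw [aeval_nodal_cons']
    exact mul_ne_zero (d.tSub_ne_zero a) ih

open scoped Classical in
theorem ord_pt_aeval_nodal (l : List (IsLocalRing.maximalIdeal 𝓡.V))
    (b : IsLocalRing.maximalIdeal 𝓡.V) :
    (d.pt b).ord ((Polynomial.aeval d.D.t (DiscAlg.nodal l) : d.ring) : F) =
      (l.map fun a => if a = b then (1 : ℤ) else 0).sum := by
  induction l with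
  | nil => simp
  | cons a l ih =>
    rw [aeval_nodal_cons']
    have h1 : (((d.tSub a * Polynomial.aeval d.D.t (DiscAlg.nodal l) : d.ring)) : F) =
        ((d.tSub a : d.ring) : F) * ((Polynomial.aeval d.D.t (DiscAlg.nodal l) : d.ring) : F) :=
      rfl
    rw [h1, (d.pt b).ord_mul (d.tSub_ne_zero a) (coe_aeval_nodal_ne_zero d l), ih,
      d.ord_pt_tSub_eq a b, List.map_cons, List.sum_cons]
    congr 1
    by_cases h : a = b
    · rw [if_pos h, if_pos h.symm]
    · rw [if_neg h, if_neg (Ne.symm h)]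

theorem redHom_aeval_nodal (l : List (IsLocalRing.maximalIdeal 𝓡.V)) :
    d.redHom (Polynomial.aeval d.D.t (DiscAlg.nodal l)) = d.redHom d.D.t ^ l.length := by
  induction l with
  | nil => simp
  | cons a l ih =>
    rw [aeval_nodal_cons', map_mul, ih, d.redHom_tSub, List.length_cons, pow_succ, mul_comm]

open scoped Classical in
theorem ord_pt_t (b : IsLocalRing.maximalIdeal 𝓡.V) :
    (d.pt b).ord ((d.D.t : d.ring) : F) = if (0 : IsLocalRing.maximalIdeal 𝓡.V) = b then 1 else 0 := by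
  have h : d.D.t = d.tSub 0 := by
    unfold DiscData.tSub
    simp
  have h2 := d.ord_pt_tSub_eq 0 b
  rw [← h] at h2
  rw [h2]
  by_cases hb : b = 0
  · rw [if_pos hb, if_pos hb.symm]
  · rw [if_neg hb, if_neg (Ne.symm hb)]

/-- If the reduction of `u` is `1`, every value of `u` is a unit. -/
theorem isUnit_ev_of_redHom_eq_one (u : d.ring) (hu : d.redHom u = 1)
    (a : IsLocalRing.maximalIdeal 𝓡.V) : IsUnit (d.D.ev a u) := by
  haveI := 𝓡.ff1k
  have h := d.red_ev a u
  have hu' : 𝓡.red ⟨(u : F), d.ring_le _ u.2⟩ = 1 := hu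
  rw [hu'] at h
  have hres : 𝓡.res (d.D.ev a u) = 1 := by
    have e : (1 : Fk) - algebraMap k Fk (𝓡.res (d.D.ev a u)) =
        algebraMap k Fk (1 - 𝓡.res (d.D.ev a u)) := by
      rw [map_sub, map_one]
    rcases h with h | h
    · have : algebraMap k Fk 1 = algebraMap k Fk (𝓡.res (d.D.ev a u)) := by
        rw [map_one]; exact h
      exact ((algebraMap k Fk).injective this).symm
    · rw [e] at h
      by_contra hne
      have hc : (1 : k) - 𝓡.res (d.D.ev a u) ≠ 0 := fun h0 => hne (sub_eq_zero.mp h0).symm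
      rw [ord_algebraMap] at h
      omega
  rw [← IsLocalRing.notMem_maximalIdeal]
  intro hmem
  have h1 : ((d.D.ev a u : 𝓡.V) : K) ∈ 𝓡.V.nonunits :=
    ValuationSubring.coe_mem_nonunits_iff.mpr hmem
  rw [← 𝓡.res_eq_zero, hres] at h1
  exact one_ne_zero h1

end Disc

section Sum

variable {𝓡 : GoodRed K F k Fk} {ι : Type*} [Fintype ι] {Qs : ι → Place k Fk}
  (d : ∀ i, DiscData 𝓡 (Qs i))

open scoped Classical in
theorem sum_polyDiv_apply_pt (hQ : Function.Injective Qs) {s : ℕ}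
    (zs : Fin s → ι → IsLocalRing.maximalIdeal 𝓡.V) (i : ι)
    (a : IsLocalRing.maximalIdeal 𝓡.V) :
    (∑ r, polyDiv d (zs r)) ((d i).pt a) = ∑ r, if zs r i = a then (1 : ℤ) else 0 := by
  rw [Finsupp.finsetSum_apply]
  refine Finset.sum_congr rfl fun r _ => ?_
  exact polyDiv_apply_pt d hQ (zs r) i a

theorem sum_polyDiv_apply_of_not_mem {s : ℕ}
    (zs : Fin s → ι → IsLocalRing.maximalIdeal 𝓡.V) (P : Place K F)
    (hP : ∀ i, 𝓡.r P ≠ Qs i) : (∑ r, polyDiv d (zs r)) P = 0 := by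
  rw [Finsupp.finsetSum_apply]
  refine Finset.sum_eq_zero fun r _ => ?_
  exact polyDiv_apply_of_not_mem d (zs r) P hP

open scoped Classical in
theorem sum_map_ofFn {s : ℕ} (f : Fin s → IsLocalRing.maximalIdeal 𝓡.V)
    (a : IsLocalRing.maximalIdeal 𝓡.V) :
    ((List.ofFn f).map fun b => if b = a then (1 : ℤ) else 0).sum =
      ∑ r, if f r = a then (1 : ℤ) else 0 := by
  rw [List.map_ofFn, List.sum_ofFn]
  rfl

end Sum

/-- **GEO**: the frozen leaf `GeoStatement` of `A3/H799/LocalSpec2.lean`. -/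
theorem geoStatement : GeoStatement K F k Fk := by
  classical
  intro 𝓡 Qs hQs hell d s zs zw hprin φ hφL hφred G hG hdiv i
  haveI := 𝓡.ff1
  haveI := 𝓡.ff1k
  -- `φ ≠ 0`
  have hφ0 : ((φ : 𝓡.O) : F) ≠ 0 := by
    intro h
    have : φ = 0 := Subtype.ext h
    rw [this, map_zero] at hφred
    exact zero_ne_one hφred
  -- the quotients `h_i`
  choose h hh using hdiv
  have hGF : ∀ j, ((G j : (d j).ring) : F) ≠ 0 := by
    intro j
    rw [hG j]
    refine mul_ne_zero (pow_ne_zero _ ?_) hφ0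
    have := (d j).tSub_ne_zero 0
    rw [DiscData.coe_tSub] at this
    simpa [DiscData.tF] using this
  have hGF' : ∀ j, ((G j : (d j).ring) : F) =
      ((Polynomial.aeval (d j).D.t (DiscAlg.nodal (List.ofFn fun r => zs r j)) : (d j).ring) : F) *
        ((h j : (d j).ring) : F) := by
    intro j
    rw [hh j]
    rfl
  have hh0 : ∀ j, ((h j : (d j).ring) : F) ≠ 0 := by
    intro j h0
    apply hGF j
    rw [hGF' j, h0, mul_zero]
  -- orders of `φ` on the discs
  have hordφ : ∀ (j : Fin (genusFF k Fk)) (a : IsLocalRing.maximalIdeal 𝓡.V),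
      ((s : ℤ) + 1) * (if (0 : IsLocalRing.maximalIdeal 𝓡.V) = a then 1 else 0) +
        ((d j).pt a).ord ((φ : 𝓡.O) : F) =
      (∑ r, if zs r j = a then (1 : ℤ) else 0) + ((d j).pt a).ord ((h j : (d j).ring) : F) := by
    intro j a
    have e1 := congrArg ((d j).pt a).ord (hGF' j)
    rw [hG j, ((d j).pt a).ord_mul (pow_ne_zero _ (by
        have := (d j).tSub_ne_zero 0
        rw [DiscData.coe_tSub] at this
        simpa [DiscData.tF] using this)) hφ0,
      ord_pow, ord_pt_t (d j) a,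
      ((d j).pt a).ord_mul (coe_aeval_nodal_ne_zero (d j) _) (hh0 j),
      ord_pt_aeval_nodal (d j), sum_map_ofFn] at e1
    push_cast at e1
    exact e1
  -- `φ ∈ L((s+1) E - Σ D_r)`
  have hφB : ∀ P : Place K F,
      (∑ r, polyDiv d (zs r)) P - ((s : ℤ) + 1) * polyDiv d 0 P ≤ P.ord ((φ : 𝓡.O) : F) := by
    intro P
    by_cases hP : ∃ j, 𝓡.r P = Qs j
    · obtain ⟨j, hj⟩ := hP
      obtain ⟨a, rfl⟩ := (d j).pt_surj P hj
      rw [sum_polyDiv_apply_pt d hQs zs j a, polyDiv_apply_pt d hQs 0 j a]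
      have e := hordφ j a
      have hnn := (d j).ord_nonneg (h j) ((d j).pt a) ((d j).r_pt a)
      have hz : ((0 : Fin (genusFF k Fk) → IsLocalRing.maximalIdeal 𝓡.V) j = a) ↔
          ((0 : IsLocalRing.maximalIdeal 𝓡.V) = a) := Iff.rfl
      simp only [hz]
      linarith
    · push Not at hP
      rw [sum_polyDiv_apply_of_not_mem d zs P hP, polyDiv_apply_of_not_mem d 0 P hP]
      have := (mem_L_iff.mp hφL P).resolve_left hφ0
      have h0 : (((s : ℤ) + 1) • polyDiv d (0 : Fin (genusFF k Fk) →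
          IsLocalRing.maximalIdeal 𝓡.V)) P = 0 := by
        rw [Finsupp.smul_apply, polyDiv_apply_of_not_mem d 0 P hP, smul_zero]
      rw [h0] at this
      simpa using this
  -- `div φ = div ψ`
  obtain ⟨ψ, hψ0, hψ⟩ := hprin
  have hψ' : ∀ P : Place K F, P.ord ψ =
      (∑ r, polyDiv d (zs r)) P + polyDiv d zw P - ((s : ℤ) + 1) * polyDiv d 0 P := by
    intro P
    rw [← hψ P]
    simp only [Finsupp.coe_sub, Finsupp.coe_add, Pi.sub_apply, Pi.add_apply, Finsupp.smul_apply,
      smul_eq_mul]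
  have hquot : ((φ : 𝓡.O) : F) * ψ⁻¹ ∈ riemannRochSpace (polyDiv d zw) := by
    rw [mem_L_iff]
    intro P
    right
    rw [P.ord_mul hφ0 (inv_ne_zero hψ0), P.ord_inv, hψ' P]
    have := hφB P
    linarith
  rw [H638.L_eq_range_of_ell_eq_one (Fermat.Agent.A3.H255.polyDiv_nonneg d zw)
    (Fermat.Agent.A3.H255.ell_polyDiv 𝓡 Qs hell d zw)] at hquot
  obtain ⟨c, hc⟩ := hquot
  have hc' : algebraMap K F c = ((φ : 𝓡.O) : F) * ψ⁻¹ := hc
  have hc0 : algebraMap K F c ≠ 0 := by
    rw [hc']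
    exact mul_ne_zero hφ0 (inv_ne_zero hψ0)
  have hφψ : ∀ P : Place K F, P.ord ((φ : 𝓡.O) : F) = P.ord ψ := by
    intro P
    have e : ((φ : 𝓡.O) : F) = algebraMap K F c * ψ := by
      rw [hc']
      field_simp
    rw [e, P.ord_mul hc0 hψ0, ord_algebraMap, zero_add]
  -- `h_i` vanishes at `pt_i (zw i)`
  have hordh : ((d i).pt (zw i)).ord ((h i : (d i).ring) : F) = 1 := by
    have e := hordφ i (zw i)
    rw [hφψ, hψ', sum_polyDiv_apply_pt d hQs zs i (zw i), polyDiv_apply_pt d hQs zw i (zw i),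
      polyDiv_apply_pt d hQs 0 i (zw i), if_pos rfl] at e
    have hz : ((0 : Fin (genusFF k Fk) → IsLocalRing.maximalIdeal 𝓡.V) i = zw i) ↔
        ((0 : IsLocalRing.maximalIdeal 𝓡.V) = zw i) := Iff.rfl
    simp only [hz] at e
    linarith
  have hhi0 : h i ≠ 0 := fun h0 => hh0 i (by rw [h0]; rfl)
  have hev : (d i).D.ev (zw i) (h i) = 0 :=
    ((d i).ev_eq_zero_iff (zw i) (h i) hhi0).mpr (by rw [hordh])
  obtain ⟨u, hu⟩ := (d i).exists_eq_mul_of_ev_eq_zero (zw i) (h i) hev
  -- the reduction of `u` is `1`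
  have hred1 : (d i).redHom (G i) = (d i).redHom (d i).D.t ^ (s + 1) := by
    have e : (⟨((G i : (d i).ring) : F), (d i).ring_le _ (G i).2⟩ : 𝓡.O) =
        (⟨(((d i).D.t : (d i).ring) : F), (d i).ring_le _ (d i).D.t.2⟩ : 𝓡.O) ^ (s + 1) * φ := by
      apply Subtype.ext
      rw [hG i]
      rfl
    rw [DiscData.redHom_apply, e, map_mul, map_pow, hφred, mul_one, DiscData.redHom_apply]
  have hred2 : (d i).redHom (G i) = (d i).redHom (d i).D.t ^ (s + 1) * (d i).redHom u := by
    rw [hh i, hu, map_mul, map_mul, redHom_aeval_nodal, (d i).redHom_tSub, List.length_ofFn,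
      pow_succ]
    ring
  have hu1 : (d i).redHom u = 1 := by
    have h0 : (d i).redHom (d i).D.t ^ (s + 1) ≠ 0 := pow_ne_zero _ (d i).redHom_t_ne_zero
    have e : (d i).redHom (d i).D.t ^ (s + 1) * (d i).redHom u =
        (d i).redHom (d i).D.t ^ (s + 1) * 1 := by
      rw [← hred2, hred1, mul_one]
    exact mul_left_cancel₀ h0 e
  refine ⟨u, isUnit_ev_of_redHom_eq_one (d i) u hu1 (zw i), ?_⟩
  rw [hh i, hu, mul_assoc]
  rfl

end Fermat.Agent.A3.H255.Geo
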