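import Fermat.Agent.A3.H799.LocalSpec2
import Fermat.Agent.A3.H799.DiscLemmas
import Fermat.Agent.A3.H255.Geo
import Fermat.Agent.Lib.RR.H439.StrongApprox

/-!
# A3 / LOCAL, leaf DET (helper255): integral functions in `L((s+1)E)` with unit jet determinant

`detStatement : DetStatement K F k Fk` (frozen leaf of `A3/H799/LocalSpec2.lean`).

Proof.  `Ē = Σ Q_i` attains Riemann's bound (`ℓ(Ē) = 1 = deg Ē + 1 - g`), hence
`𝔸 = 𝔸(Ē) + Fk` and principal parts modulo `𝔸(Ē)` can be prescribed: for every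
`c = (i₀, m)` there is `ψ_c ∈ L_k((s+1)Ē)` with `ψ_c ≡ t̄_{i₀}^{m-s-1}` at `Q_{i₀}` and
`ψ_c ≡ 0` at the other `Q_i` (modulo functions of order `≥ -1`).  Lift `ψ_c` to an integral
`φ_c ∈ L((s+1)E)` (integral Riemann–Roch, `GoodRed.exists_lift`), interpolate
`t_i^{s+1} φ_c = P(t_i) + t_i^s H` in the disc algebra; the reduction of `P` is
`δ · X^m` modulo `X^s`, so the jet matrix reduces to the identity and has unit determinant.

All proofs complete.
-/

set_option autoImplicit false
set_option linter.style.haveILetI false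
set_option linter.unusedSectionVars false

noncomputable section

open AlgebraicCurve

namespace Fermat.Agent.A3.H255.Det

open Fermat.Agent.Lib.RR Fermat.Agent.A3.H799

/-! ### Prescribing principal parts -/

section Approx

variable {K F : Type*} [Field K] [Field F] [Algebra K F] [FF1 K F]

open Classical in
/-- Strong approximation from `𝔸 = 𝔸(D) + F`. -/
theorem exists_approx_of_sup {D : Divisor K F}
    (hsup : repartitionsOf D ⊔ principalRepartitions K F = ⊤) (S : Finset (Place K F))
    (φ : Place K F → F) :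
    ∃ f : F, (∀ v ∈ S, H623.Big v (-D v) (f - φ v)) ∧ ∀ v ∉ S, H623.Big v (-D v) f := by
  let α₀ : Place K F → F := fun v => if v ∈ S then φ v else 0
  have hα₀ : α₀ ∈ repartitions K F := by
    apply mem_repartitions_of_finite_ord
    refine (Finset.finite_toSet S).subset fun v hv => ?_
    by_contra hvS
    have hv' : v.ord (α₀ v) < 0 := hv
    have : α₀ v = 0 := if_neg hvS
    rw [this, v.ord_zero] at hv'
    exact lt_irrefl _ hv'
  let α : ↥(repartitions K F) := ⟨α₀, hα₀⟩
  have hmem : α ∈ repartitionsOf D ⊔ principalRepartitions K F := by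
    rw [hsup]; trivial
  obtain ⟨β, hβ, γ, hγ, hsum⟩ := Submodule.mem_sup.mp hmem
  obtain ⟨f, hf⟩ := mem_principalRepartitions_iff.mp hγ
  rw [mem_repartitionsOf_iff] at hβ
  have hval : ∀ v, (β : Place K F → F) v = α₀ v - f := by
    intro v
    have h1 := congrArg (fun x : ↥(repartitions K F) => (x : Place K F → F) v) hsum
    simp only [H439.coe_add_apply] at h1
    have h2 : (γ : Place K F → F) v = f := by rw [hf]
    rw [h2] at h1
    have h3 : (α : Place K F → F) v = α₀ v := rfl
    rw [h3] at h1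
    rw [← h1]; ring
  refine ⟨f, fun v hv => ?_, fun v hv => ?_⟩
  · have h := hβ v
    rw [hval v] at h
    have hα : α₀ v = φ v := if_pos hv
    rw [hα] at h
    have h' : H623.Big v (-D v) (φ v - f) := h
    have := h'.neg
    rwa [neg_sub] at this
  · have h := hβ v
    rw [hval v] at h
    have hα : α₀ v = 0 := if_neg hv
    rw [hα, zero_sub] at h
    have h' : H623.Big v (-D v) (-f) := h
    have := h'.neg
    rwa [neg_neg] at this

/-- Principal parts modulo `𝔸(Ē)` at `g` distinct points with `ℓ(Σ Q_i) = 1`. -/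
theorem exists_jet {ι : Type*} [Fintype ι] (Qs : ι → Place K F) (hQs : Function.Injective Qs)
    (hcard : Fintype.card ι = genusFF K F)
    (hell : ell (∑ i, Finsupp.single (Qs i) (1 : ℤ)) = 1) (τ : ι → F) :
    ∃ f : F, (∀ i, H623.Big (Qs i) (-1) (f - τ i)) ∧
      ∀ v : Place K F, (∀ i, Qs i ≠ v) → H623.Big v 0 f := by
  classical
  have hatt : (ell (∑ i, Finsupp.single (Qs i) (1 : ℤ)) : ℤ) =
      Divisor.degree (∑ i, Finsupp.single (Qs i) (1 : ℤ)) + 1 - (genusFF K F : ℤ) := by
    rw [hell, Fermat.Agent.A3.H255.degree_sum_single, hcard]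
    simp
  have hsup := H439.sup_eq_top_of_attains (genusFF K F : ℤ)
    (fun D' => riemann_inequality_genusFF D') _ hatt
  let φ : Place K F → F := fun v => if h : ∃ i, Qs i = v then τ h.choose else 0
  have hφ : ∀ i, φ (Qs i) = τ i := by
    intro i
    have hex : ∃ j, Qs j = Qs i := ⟨i, rfl⟩
    have : φ (Qs i) = τ hex.choose := dif_pos hex
    rw [this, hQs hex.choose_spec]
  obtain ⟨f, h1, h2⟩ := exists_approx_of_sup hsup (Finset.univ.image Qs) φ
  refine ⟨f, fun i => ?_, fun v hv => ?_⟩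
  · have := h1 (Qs i) (Finset.mem_image_of_mem Qs (Finset.mem_univ i))
    rwa [hφ i, Fermat.Agent.A3.H255.sum_single_apply_of_injective hQs i] at this
  · have hvS : v ∉ Finset.univ.image Qs := by
      intro hmem
      obtain ⟨i, -, hi⟩ := Finset.mem_image.mp hmem
      exact hv i hi
    have := h2 v hvS
    rwa [Fermat.Agent.A3.H255.sum_single_apply_of_forall_ne hv, neg_zero] at this

end Approx

variable {K F k Fk : Type*} [Field K] [Field F] [Algebra K F] [Field k] [Field Fk] [Algebra k Fk]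

/-! ### Disc algebra lemmas -/

section Disc

variable {𝓡 : GoodRed K F k Fk} {Q : Place k Fk} (d : DiscData 𝓡 Q)

theorem nodal_replicate_zero (s : ℕ) :
    DiscAlg.nodal (List.replicate s (0 : IsLocalRing.maximalIdeal 𝓡.V)) =
      (Polynomial.X : Polynomial 𝓡.V) ^ s := by
  induction s with
  | zero => simp
  | succ n ih =>
    rw [List.replicate_succ, DiscAlg.nodal_cons, ih, pow_succ]
    simp
    ring

/-- Interpolation at the centre: `f = P(t) + t^s H`. -/
theorem exists_interp_center (s : ℕ) (f : d.ring) :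
    ∃ (P : Polynomial 𝓡.V) (H : d.ring), f = Polynomial.aeval d.D.t P + d.D.t ^ s * H := by
  obtain ⟨P, H, h⟩ := d.D.exists_interp (List.replicate s 0) f
  refine ⟨P, H, ?_⟩
  rw [h, nodal_replicate_zero]
  simp

theorem redHom_comp_algebraMap :
    d.redHom.comp (algebraMap 𝓡.V d.ring) = (algebraMap k Fk).comp 𝓡.res := by
  ext a
  exact d.redHom_algebraMap a

theorem redHom_aeval (P : Polynomial 𝓡.V) :
    d.redHom (Polynomial.aeval d.D.t P) =
      Polynomial.aeval (d.redHom d.D.t) (P.map 𝓡.res) := by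
  rw [Polynomial.aeval_def, Polynomial.hom_eval₂, redHom_comp_algebraMap, Polynomial.aeval_def,
    Polynomial.eval₂_map]

/-- The reduction of a function of the disc ring is regular at `Q`. -/
theorem big_redHom (h : d.ring) : H623.Big Q 0 (d.redHom h) := by
  haveI := 𝓡.ff1k
  have h1 := d.red_ev 0 h
  have hc : H623.Big Q 0 (algebraMap k Fk (𝓡.res (d.D.ev 0 h))) := by
    rcases eq_or_ne (algebraMap k Fk (𝓡.res (d.D.ev 0 h))) 0 with h0 | h0
    · exact Or.inl h0
    · right
      have hne : 𝓡.res (d.D.ev 0 h) ≠ 0 := fun hz => h0 (by rw [hz, map_zero])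
      rw [ord_algebraMap]
  have hd : H623.Big Q 0 (d.redHom h - algebraMap k Fk (𝓡.res (d.D.ev 0 h))) := by
    rcases h1 with h1 | h1
    · left
      rw [DiscData.redHom_apply, h1, sub_self]
    · right
      rw [DiscData.redHom_apply]
      omega
  have := hd.add hc
  rwa [sub_add_cancel] at this

/-- A polynomial in a uniformiser vanishing to order `≥ s` has no coefficients below `s`. -/
theorem coeff_eq_zero_of_big {K' F' : Type*} [Field K'] [Field F'] [Algebra K' F'] [FF1 K' F']
    (v : Place K' F') {x : F'} (hx : v.ord x = 1) (q : Polynomial K') (s : ℕ)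
    (h : H623.Big v s (Polynomial.aeval x q)) (n : ℕ) (hn : n < s) : q.coeff n = 0 := by
  rcases eq_or_ne q 0 with rfl | hq
  · simp
  obtain ⟨h1, h2⟩ := aeval_ord v (by rw [hx]; exact zero_lt_one) hq
  have h3 := h.le_ord h1
  rw [h2, hx, mul_one] at h3
  have h4 : s ≤ q.rootMultiplicity 0 := by exact_mod_cast h3
  have h5 : (Polynomial.X - Polynomial.C (0 : K')) ^ s ∣ q :=
    (Polynomial.le_rootMultiplicity_iff hq).mp h4
  rw [Polynomial.C_0, sub_zero] at h5
  exact Polynomial.X_pow_dvd_iff.mp h5 n hn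

/-- `res x = 1` implies `x` is a unit of `V`. -/
theorem isUnit_of_res_eq_one (x : 𝓡.V) (hx : 𝓡.res x = 1) : IsUnit x := by
  rw [← IsLocalRing.notMem_maximalIdeal]
  intro hmem
  have h1 : ((x : 𝓡.V) : K) ∈ 𝓡.V.nonunits :=
    ValuationSubring.coe_mem_nonunits_iff.mpr hmem
  rw [← 𝓡.res_eq_zero, hx] at h1
  exact one_ne_zero h1

end Disc

/-- **DET**: the frozen leaf `DetStatement` of `A3/H799/LocalSpec2.lean`. -/
theorem detStatement : DetStatement K F k Fk := by
  classical
  intro 𝓡 Qs hQs hell d s hs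
  haveI := 𝓡.ff1
  haveI := 𝓡.ff1k
  -- uniformisers on the special fibre
  have htb : ∀ i, (Qs i).ord ((d i).redHom (d i).D.t) = 1 := fun i => (d i).ord_redHom_t
  have htb0 : ∀ i, (d i).redHom (d i).D.t ≠ 0 := fun i => (d i).redHom_t_ne_zero
  -- targets
  let τ : (Σ _ : Fin (genusFF k Fk), Fin s) → Fin (genusFF k Fk) → Fk := fun c i =>
    if i = c.1 then (d i).redHom (d i).D.t ^ (((c.2 : ℕ) : ℤ) - ((s : ℤ) + 1)) else 0
  have hτbig : ∀ c i, H623.Big (Qs i) (-((s : ℤ) + 1)) (τ c i) := by
    intro c i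
    by_cases hi : i = c.1
    · right
      simp only [τ, if_pos hi]
      rw [Place.ord_zpow, htb i, mul_one]
      have : (0 : ℤ) ≤ ((c.2 : ℕ) : ℤ) := Int.natCast_nonneg _
      omega
    · left
      simp only [τ, if_neg hi]
  -- step 1: functions on the special fibre
  have h1 : ∀ c, ∃ ψ : Fk, (∀ i, H623.Big (Qs i) (-1) (ψ - τ c i)) ∧
      ∀ v : Place k Fk, (∀ i, Qs i ≠ v) → H623.Big v 0 ψ :=
    fun c => exists_jet Qs hQs (by simp) hell (τ c)
  choose ψ hψ1 hψ2 using h1
  have hrE : Finsupp.mapDomain 𝓡.r (((s : ℤ) + 1) • polyDiv d 0) =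
      ((s : ℤ) + 1) • ∑ i, Finsupp.single (Qs i) (1 : ℤ) := by
    rw [Finsupp.mapDomain_smul, Fermat.Agent.A3.H255.mapDomain_polyDiv]
  have hψL : ∀ c, ψ c ∈ riemannRochSpace (Finsupp.mapDomain 𝓡.r (((s : ℤ) + 1) • polyDiv d 0)) := by
    intro c
    rw [hrE, mem_L_iff]
    intro v
    by_cases hv : ∃ i, Qs i = v
    · obtain ⟨i, rfl⟩ := hv
      have hb : H623.Big (Qs i) (-((s : ℤ) + 1)) (ψ c) := by
        have h := ((hψ1 c i).mono (s := -((s : ℤ) + 1)) (by omega)).add (hτbig c i)
        rwa [sub_add_cancel] at h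
      rw [Finsupp.smul_apply, Fermat.Agent.A3.H255.sum_single_apply_of_injective hQs i,
        smul_eq_mul, mul_one]
      exact hb
    · push Not at hv
      have hb := hψ2 c v hv
      rw [Finsupp.smul_apply, Fermat.Agent.A3.H255.sum_single_apply_of_forall_ne hv, smul_zero,
        neg_zero]
      exact hb
  -- step 2: integral lifts
  have hdeg : 2 * (genusFF k Fk : ℤ) - 2 < Divisor.degree (((s : ℤ) + 1) • polyDiv d 0) := by
    rw [map_zsmul, Fermat.Agent.A3.H255.degree_polyDiv, smul_eq_mul, Fintype.card_fin]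
    have h1 : (1 : ℤ) ≤ (s : ℤ) := by exact_mod_cast hs
    have h2 : (0 : ℤ) ≤ (genusFF k Fk : ℤ) := Int.natCast_nonneg _
    nlinarith
  have h2 : ∀ c, ∃ (f : F) (hf : f ∈ 𝓡.O),
      f ∈ riemannRochSpace (((s : ℤ) + 1) • polyDiv d 0) ∧ 𝓡.red ⟨f, hf⟩ = ψ c :=
    fun c => 𝓡.exists_lift _ hdeg (hψL c)
  choose φF hφO hφL hφred using h2
  -- step 3: `t_i^{s+1} φ_c` lies in the disc ring
  have hmem : ∀ c i, (((d i).D.t : (d i).ring) : F) ^ (s + 1) * φF c ∈ (d i).ring := by
    intro c i
    refine (d i).mem_ring _ (mul_mem (pow_mem ((d i).ring_le _ (d i).D.t.2) _) (hφO c)) ?_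
    intro P hP
    obtain ⟨a, rfl⟩ := (d i).pt_surj P hP
    rcases eq_or_ne (φF c) 0 with h0 | h0
    · rw [h0, mul_zero]
      exact zero_mem _
    · apply mem_of_ord_nonneg
      have ht0 : (((d i).D.t : (d i).ring) : F) ≠ 0 := by
        have := (d i).tSub_ne_zero 0
        rw [DiscData.coe_tSub] at this
        simpa [DiscData.tF] using this
      rw [((d i).pt a).ord_mul (pow_ne_zero _ ht0) h0, ord_pow, Geo.ord_pt_t (d i) a]
      have h3 := (mem_L_iff.mp (hφL c) ((d i).pt a)).resolve_left h0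
      rw [Finsupp.smul_apply, polyDiv_apply_pt d hQs 0 i a, smul_eq_mul] at h3
      have hz : ((0 : Fin (genusFF k Fk) → IsLocalRing.maximalIdeal 𝓡.V) i = a) ↔
          ((0 : IsLocalRing.maximalIdeal 𝓡.V) = a) := Iff.rfl
      simp only [hz] at h3
      push_cast
      linarith
  -- step 4: interpolation
  have h4 : ∀ c i, ∃ (P : Polynomial 𝓡.V) (H : (d i).ring),
      (⟨_, hmem c i⟩ : (d i).ring) = Polynomial.aeval (d i).D.t P + (d i).D.t ^ s * H :=
    fun c i => exists_interp_center (d i) s _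
  choose P H hPH using h4
  refine ⟨fun c => ⟨φF c, hφO c⟩, fun c i => ⟨_, hmem c i⟩, P, H, hφL, fun c i => rfl, hPH, ?_⟩
  intro inst
  -- step 5: the reduction of the coefficients
  have hcoeff : ∀ (c : Σ _ : Fin (genusFF k Fk), Fin s) (i : Fin (genusFF k Fk)) (n : ℕ),
      n < s → 𝓡.res ((P c i).coeff n) = if i = c.1 ∧ n = (c.2 : ℕ) then 1 else 0 := by
    intro c i n hn
    set tb := (d i).redHom (d i).D.t with htbdef
    -- reduction of the interpolation identity
    have e1 : (d i).redHom (⟨_, hmem c i⟩ : (d i).ring) = tb ^ (s + 1) * ψ c := by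
      have e : (⟨(((d i).D.t : (d i).ring) : F) ^ (s + 1) * φF c,
          (d i).ring_le _ (hmem c i)⟩ : 𝓡.O) =
          (⟨(((d i).D.t : (d i).ring) : F), (d i).ring_le _ (d i).D.t.2⟩ : 𝓡.O) ^ (s + 1) *
            ⟨φF c, hφO c⟩ := by
        apply Subtype.ext
        rfl
      rw [DiscData.redHom_apply]
      show 𝓡.red ⟨(((d i).D.t : (d i).ring) : F) ^ (s + 1) * φF c, _⟩ = _
      rw [e, map_mul, map_pow, hφred c]
      rfl
    have e2 : (d i).redHom (⟨_, hmem c i⟩ : (d i).ring) =
        Polynomial.aeval tb ((P c i).map 𝓡.res) + tb ^ s * (d i).redHom (H c i) := by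
      rw [hPH c i, map_add, map_mul, map_pow, redHom_aeval]
    let mono : Polynomial k := if i = c.1 then Polynomial.X ^ (c.2 : ℕ) else 0
    have e3 : tb ^ (s + 1) * τ c i = Polynomial.aeval tb mono := by
      by_cases hi : i = c.1
      · simp only [τ, mono, if_pos hi, map_pow, Polynomial.aeval_X]
        rw [← zpow_natCast tb (s + 1), ← zpow_add₀ (htb0 i), ← zpow_natCast tb (c.2 : ℕ)]
        congr 1
        push_cast
        ring
      · simp only [τ, mono, if_neg hi, mul_zero, map_zero]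
    have hbig : H623.Big (Qs i) (s : ℤ)
        (Polynomial.aeval tb ((P c i).map 𝓡.res - mono)) := by
      have e4 : Polynomial.aeval tb ((P c i).map 𝓡.res - mono) =
          tb ^ (s + 1) * (ψ c - τ c i) - tb ^ s * (d i).redHom (H c i) := by
        rw [map_sub, ← e3]
        have := e1.symm.trans e2
        linear_combination -this
      rw [e4]
      have b1 : H623.Big (Qs i) ((s : ℤ) + 1) (tb ^ (s + 1)) := by
        right
        rw [ord_pow, htb i]
        push_cast
        omega
      have b2 : H623.Big (Qs i) (s : ℤ) (tb ^ s) := by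
        right
        rw [ord_pow, htb i]
        omega
      have b3 := b1.mul (hψ1 c i)
      have b4 := b2.mul (big_redHom (d i) (H c i))
      have b3' : H623.Big (Qs i) (s : ℤ) (tb ^ (s + 1) * (ψ c - τ c i)) := b3.mono (by omega)
      have b4' : H623.Big (Qs i) (s : ℤ) (tb ^ s * (d i).redHom (H c i)) := b4.mono (by omega)
      exact b3'.sub b4'
    have h0 := coeff_eq_zero_of_big (Qs i) (htb i) _ s hbig n hn
    rw [Polynomial.coeff_sub, Polynomial.coeff_map, sub_eq_zero] at h0
    rw [h0]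
    by_cases hi : i = c.1
    · simp only [mono, if_pos hi, Polynomial.coeff_X_pow, hi, true_and]
    · simp only [mono, if_neg hi, Polynomial.coeff_zero, hi, false_and, if_false]
  -- step 6: the determinant
  apply isUnit_of_res_eq_one
  rw [RingHom.map_det]
  have hone : 𝓡.res.mapMatrix (Matrix.of fun (c j : Σ _ : Fin (genusFF k Fk), Fin s) =>
      (P j c.1).coeff (c.2 : ℕ)) = 1 := by
    ext c j
    rw [RingHom.mapMatrix_apply, Matrix.map_apply, Matrix.of_apply, hcoeff j c.1 c.2 c.2.2,
      Matrix.one_apply]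
    rcases c with ⟨c1, c2⟩
    rcases j with ⟨j1, j2⟩
    by_cases h : (⟨c1, c2⟩ : Σ _ : Fin (genusFF k Fk), Fin s) = ⟨j1, j2⟩
    · rw [if_pos h]
      have h' := Sigma.mk.inj_iff.mp h
      rw [if_pos ⟨h'.1, by rw [eq_of_heq h'.2]⟩]
    · rw [if_neg h, if_neg]
      rintro ⟨h1, h2⟩
      apply h
      have h1' : c1 = j1 := h1
      have h2' : c2 = j2 := Fin.ext h2
      rw [h1', h2']
  rw [hone, Matrix.det_one]

end Fermat.Agent.A3.H255.Det
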