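import Fermat.Agent.A3.H255.Coord

/-!
# A3 / LOCAL, leaf DISC-I (helper255): inertia permutes the points of a disc through their
parameter values

`discEquivStatement : DiscEquivStatement K F k Fk` (frozen leaf of `A3/H799/LocalSpec.lean`).

Proof.  `g ∈ I` fixes the parameter `t` and the disc (`I_place`), and `g a ∈ 𝔪_V` for
`a ∈ 𝔪_V` (`I_base`).  The function `t - a` vanishes at `pt a`, so `g • (t - a) = t - g a`
vanishes at `g • pt a`; the place `g • pt a` lies in the disc, hence is `pt a''` and `t - a''`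
vanishes there as well; so the constant `g a - a''` vanishes at a place, i.e. `a'' = g a`.

All proofs complete.
-/

set_option autoImplicit false
set_option linter.style.haveILetI false

noncomputable section

open AlgebraicCurve

namespace Fermat.Agent.A3.H255

open Fermat.Agent.Lib.RR Fermat.Agent.A3.H799

variable {K F k Fk : Type*} [Field K] [Field F] [Algebra K F] [Field k] [Field Fk] [Algebra k Fk]

/-- The parameter minus the parameter value vanishes at the point. -/
theorem big_t_sub {𝓡 : GoodRed K F k Fk} {Q : Place k Fk} (d : DiscData 𝓡 Q)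
    (a : IsLocalRing.maximalIdeal 𝓡.V) :
    H623.Big (d.pt a) 1 (((d.D.t : d.ring) : F) - algebraMap K F ((a : 𝓡.V) : K)) := by
  have h1 := d.ev_spec a d.D.t
  rw [d.D.ev_t] at h1
  rcases h1 with h1 | h1
  · left; rw [h1, sub_self]
  · exact Or.inr h1

/-- A point of the disc at which `t - b` vanishes is `pt b`. -/
theorem pt_eq_of_big {𝓡 : GoodRed K F k Fk} {Q : Place k Fk} (d : DiscData 𝓡 Q)
    (P : Place K F) (hP : 𝓡.r P = Q) (b : IsLocalRing.maximalIdeal 𝓡.V)
    (hb : H623.Big P 1 (((d.D.t : d.ring) : F) - algebraMap K F ((b : 𝓡.V) : K))) :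
    P = d.pt b := by
  obtain ⟨a, rfl⟩ := d.pt_surj P hP
  congr 1
  have b3 := hb.sub (big_t_sub d a)
  have e : ((d.D.t : d.ring) : F) - algebraMap K F ((b : 𝓡.V) : K) -
      (((d.D.t : d.ring) : F) - algebraMap K F ((a : 𝓡.V) : K)) =
      algebraMap K F (((a : 𝓡.V) : K) - ((b : 𝓡.V) : K)) := by
    rw [map_sub]; ring
  rw [e] at b3
  rcases b3 with h0 | h0
  · have : ((a : 𝓡.V) : K) - ((b : 𝓡.V) : K) = 0 :=
      (map_eq_zero (algebraMap K F)).mp h0
    exact Subtype.ext (Subtype.ext (sub_eq_zero.mp this))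
  · rw [ord_algebraMap] at h0
    omega

/-- Inertia preserves the maximal ideal of `V`. -/
theorem baseAut_mem_maximalIdeal (𝓡 : GoodRed K F k Fk) (g : SemilinearAut K F) (hg : g ∈ 𝓡.I)
    (a : IsLocalRing.maximalIdeal 𝓡.V) :
    ∃ h : SemilinearAut.baseAut g ((a : 𝓡.V) : K) ∈ 𝓡.V,
      (⟨SemilinearAut.baseAut g ((a : 𝓡.V) : K), h⟩ : 𝓡.V) ∈ IsLocalRing.maximalIdeal 𝓡.V := by
  obtain ⟨h, hres⟩ := 𝓡.I_base g hg (a : 𝓡.V)
  refine ⟨h, ?_⟩
  have ha : 𝓡.res (a : 𝓡.V) = 0 := by
    rw [𝓡.res_eq_zero]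
    exact ValuationSubring.coe_mem_nonunits_iff.mpr a.2
  rw [ha, 𝓡.res_eq_zero] at hres
  exact ValuationSubring.coe_mem_nonunits_iff.mp hres

/-- **DISC-I**: the frozen leaf `DiscEquivStatement` of `A3/H799/LocalSpec.lean`. -/
theorem discEquivStatement : DiscEquivStatement K F k Fk := by
  intro 𝓡 Q d ht g hg a
  obtain ⟨h, h'⟩ := baseAut_mem_maximalIdeal 𝓡 g hg a
  refine ⟨h, h', ?_⟩
  apply pt_eq_of_big d (g • d.pt a) (by rw [𝓡.I_place g hg, d.r_pt])
  -- `t - g a = g • (t - a)` vanishes at `g • pt a`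
  have e : ((d.D.t : d.ring) : F) - algebraMap K F (SemilinearAut.baseAut g ((a : 𝓡.V) : K)) =
      g • (((d.D.t : d.ring) : F) - algebraMap K F ((a : 𝓡.V) : K)) := by
    rw [smul_sub, ht g hg, SemilinearAut.smul_algebraMap]
  show H623.Big (g • d.pt a) 1
    (((d.D.t : d.ring) : F) - algebraMap K F (SemilinearAut.baseAut g ((a : 𝓡.V) : K)))
  rw [e]
  rcases big_t_sub d a with h0 | h0
  · left
    rw [h0, smul_zero]
  · right
    rw [SemilinearAut.ord_smul]
    exact h0

end Fermat.Agent.A3.H255
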