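import Fermat.Agent.A3.H799.LocalFinal
import Fermat.Agent.A3.H255.Det
import Fermat.Agent.S19.H979.RankOne

/-!
# A3 / LOCAL (helper255): the abstract LOCAL theorem, unconditionally

`localStatement : A3.H799.LocalStatement K F k Fk` for every `GoodRed` interface
(`localStatement_of_det` of helper799 + the leaf DET of `A3/H255/Det.lean`), and the block
`AbsLocalStatement` of `S19/H979/LocalGlue.lean`.

So `S19.LocalStatement` is reduced to `GrStatement` (good reduction of `X₀(N)`) alone:
`localStatement_of_gr`.
-/

set_option autoImplicit false

namespace Fermat.Agent.A3.H255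

universe u₁ u₂ u₃ u₄

variable {K : Type u₁} {F : Type u₂} {k : Type u₃} {Fk : Type u₄}
  [Field K] [Field F] [Algebra K F] [Field k] [Field Fk] [Algebra k Fk]

/-- **The abstract LOCAL theorem** (frozen `A3.H799.LocalStatement`), unconditionally. -/
theorem localStatement [IsAlgClosed K] [IsAlgClosed k] [CharZero K] :
    Fermat.Agent.A3.H799.LocalStatement K F k Fk :=
  Fermat.Agent.A3.H799.localStatement_of_det Det.detStatement

/-- The block `AbsLocalStatement` of `S19/H979/LocalGlue.lean`. -/
theorem absLocalStatement : Fermat.Agent.S19.H979.AbsLocalStatement :=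
  fun _ _ _ _ _ _ _ _ _ => localStatement

/-- `S19.LocalStatement` (node LOCAL of `S19/Spec.lean`) from good reduction of `X₀(N)` alone. -/
theorem localStatement_of_gr (hG : Fermat.Agent.S19.H979.GrStatement) :
    Fermat.Agent.S19.LocalStatement :=
  Fermat.Agent.S19.H979.localStatement_of_abs_gr' absLocalStatement hG

end Fermat.Agent.A3.H255
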