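import Fermat.Agent.A3.H799.LocalSpec
import Fermat.Agent.S19.H255.NSP

/-!
# A3 / LOCAL, leaf NSP (helper255): non-special reduced divisors on the special fibre

`nspStatement : NspStatement k Fk` (frozen leaf of `A3/H799/LocalSpec.lean`), from
`exists_reduced_nonspecial` (`S19/H255/NSP.lean`, on `Lib/RR/H638`).  Also the version avoiding a
finite set of places.

All proofs complete.
-/

set_option autoImplicit false
set_option linter.style.haveILetI false

noncomputable section

open AlgebraicCurve

namespace Fermat.Agent.A3.H255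

open Fermat.Agent.Lib.RR Fermat.Agent.A3.H799

variable {k Fk : Type*} [Field k] [Field Fk] [Algebra k Fk]

/-- `g` distinct places outside a finite set `S` with `ℓ(Σ Q_i) = 1`, as a family. -/
theorem exists_nonspecial_family [FF1 k Fk] [Infinite k] (S : Finset (Place k Fk)) :
    ∃ Qs : Fin (genusFF k Fk) → Place k Fk, Function.Injective Qs ∧ (∀ i, Qs i ∉ S) ∧
      ell (∑ i, Finsupp.single (Qs i) (1 : ℤ)) = 1 := by
  classical
  obtain ⟨T, hcard, hdisj, hell⟩ := Fermat.Agent.S19.H255.exists_reduced_nonspecial S
  let e : Fin (genusFF k Fk) ≃ T := (T.equivFinOfCardEq hcard).symm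
  refine ⟨fun i => (e i : Place k Fk), ?_, ?_, ?_⟩
  · intro i j h
    exact e.injective (Subtype.ext h)
  · intro i hi
    exact (Finset.disjoint_left.mp hdisj) (e i).2 hi
  · have h1 : (∑ i, Finsupp.single ((e i : T) : Place k Fk) (1 : ℤ)) = H638.divT T := by
      unfold H638.divT prim
      rw [Equiv.sum_comp e (fun v : T => Finsupp.single (v : Place k Fk) (1 : ℤ))]
      exact Finset.sum_coe_sort T (fun v => Finsupp.single v (1 : ℤ))
    rw [h1]
    exact hell

/-- **NSP**: the frozen leaf `NspStatement` of `A3/H799/LocalSpec.lean`. -/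
theorem nspStatement : NspStatement k Fk := by
  intro _ _
  haveI : Infinite k := IsAlgClosed.instInfinite
  obtain ⟨Qs, hinj, -, hell⟩ := exists_nonspecial_family (k := k) (Fk := Fk) ∅
  exact ⟨Qs, hinj, hell⟩

end Fermat.Agent.A3.H255
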