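import Fermat.Agent.A3.H799.Zgen
import Fermat.Agent.A3.H255.Det

/-!
# A3 / LOCAL, leaf ZADD (helper255): addition on the polydisc is algebraic

* `zadd_of : ZtriStatement → ZnegStatement → ZaddStatement` (uses the leaf COORD, proved in
  `A3/H255/Coord.lean`): if `D_x + D_y ∼ D_s + E`, let `w` be the polydisc point with
  `D_x + D_y + D_w ∼ 3E` (COORD, existence); ZTRI puts the coordinates of `w` in `Λ`, and
  `D_w + D_s ∼ 2E`, so ZNEG puts the coordinates of `s` in `Λ`.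
* `zgenStatement`, `ztriStatement`, `znegStatement`, `zaddStatement`: the frozen leaves of
  `A3/H799/LocalSpec.lean` / `LocalSpec2.lean`, UNCONDITIONALLY (GEO and DET of `A3/H255`,
  `zgen_of` of helper799).

All proofs complete.
-/

set_option autoImplicit false
set_option linter.style.haveILetI false

noncomputable section

open AlgebraicCurve

namespace Fermat.Agent.A3.H255.Zadd

open Fermat.Agent.Lib.RR Fermat.Agent.A3.H799

universe u₁ u₂ u₃ u₄ w

variable {K : Type u₁} {F : Type u₂} {k : Type u₃} {Fk : Type u₄}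
  [Field K] [Field F] [Algebra K F] [Field k] [Field Fk] [Algebra k Fk]

/-- For two polydisc points `x`, `y` there is a polydisc point `w` with
`D_x + D_y + D_w ∼ 3E`. -/
theorem exists_third (𝓡 : GoodRed K F k Fk) (Qs : Fin (genusFF k Fk) → Place k Fk)
    (hQs : Function.Injective Qs)
    (hell : @Lib.RR.ell k Fk _ _ _ (∑ i, Finsupp.single (Qs i) (1 : ℤ)) = 1)
    (d : ∀ i, DiscData 𝓡 (Qs i))
    (zx zy : Fin (genusFF k Fk) → IsLocalRing.maximalIdeal 𝓡.V) :
    ∃ zw : Fin (genusFF k Fk) → IsLocalRing.maximalIdeal 𝓡.V,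
      polyDiv d zx + polyDiv d zy + polyDiv d zw - (3 : ℤ) • polyDiv d 0 ∈
        Divisor.principal (K := K) (F := F) := by
  have hdeg : ∀ z : Fin (genusFF k Fk) → IsLocalRing.maximalIdeal 𝓡.V,
      Divisor.degree (polyDiv d z - polyDiv d 0) = 0 := by
    intro z
    rw [map_sub, Fermat.Agent.A3.H255.degree_polyDiv, Fermat.Agent.A3.H255.degree_polyDiv,
      sub_self]
  let Dx : Divisor.degZero (K := K) (F := F) := ⟨polyDiv d zx - polyDiv d 0, hdeg zx⟩
  let Dy : Divisor.degZero (K := K) (F := F) := ⟨polyDiv d zy - polyDiv d 0, hdeg zy⟩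
  have hx : Pic0.mk Dx ∈ 𝓡.kerRed := mem_kerRed_of_polyDiv 𝓡 Qs d zx Dx rfl
  have hy : Pic0.mk Dy ∈ 𝓡.kerRed := mem_kerRed_of_polyDiv 𝓡 Qs d zy Dy rfl
  have hxy : -(Pic0.mk Dx + Pic0.mk Dy) ∈ 𝓡.kerRed :=
    𝓡.kerRed.neg_mem (𝓡.kerRed.add_mem hx hy)
  obtain ⟨zw, D, hD, hDw⟩ := exists_polyDiv 𝓡 Qs hQs hell d _ hxy
  refine ⟨zw, ?_⟩
  have h0 : Pic0.mk (D + Dx + Dy) = 0 := by
    rw [Pic0.mk_add, Pic0.mk_add, hDw]
    abel
  have h1 : (QuotientAddGroup.mk (D + Dx + Dy) : Pic0 K F) = 0 := h0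
  rw [QuotientAddGroup.eq_zero_iff, AddSubgroup.mem_addSubgroupOf] at h1
  have e : ((D + Dx + Dy : Divisor.degZero (K := K) (F := F)) : Divisor K F) =
      polyDiv d zx + polyDiv d zy + polyDiv d zw - (3 : ℤ) • polyDiv d 0 := by
    show (D : Divisor K F) + (polyDiv d zx - polyDiv d 0) + (polyDiv d zy - polyDiv d 0) = _
    rw [hD]
    have h3 : (3 : ℤ) • polyDiv d (0 : Fin (genusFF k Fk) → IsLocalRing.maximalIdeal 𝓡.V) =
        polyDiv d 0 + polyDiv d 0 + polyDiv d 0 := by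
      rw [show (3 : ℤ) = 1 + 1 + 1 by norm_num, add_smul, add_smul, one_smul]
    rw [h3]
    abel
  rwa [e] at h1

/-- **ZADD** from ZTRI and ZNEG (and COORD). -/
theorem zadd_of (hztri : ZtriStatement.{u₁, u₂, u₃, u₄, w} K F k Fk)
    (hzneg : ZnegStatement.{u₁, u₂, u₃, u₄, w} K F k Fk) :
    ZaddStatement.{u₁, u₂, u₃, u₄, w} K F k Fk := by
  intro 𝓡 Qs hQs hell d T _ Λ zx zy zs hzx hzy hprin i
  have hw : ∀ τ, ∃ zw : Fin (genusFF k Fk) → IsLocalRing.maximalIdeal 𝓡.V,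
      polyDiv d (zx τ) + polyDiv d (zy τ) + polyDiv d zw - (3 : ℤ) • polyDiv d 0 ∈
        Divisor.principal (K := K) (F := F) :=
    fun τ => exists_third 𝓡 Qs hQs hell d (zx τ) (zy τ)
  choose zw hzw using hw
  have hzwΛ := hztri 𝓡 Qs hQs hell d T Λ zx zy zw hzx hzy hzw
  refine hzneg 𝓡 Qs hQs hell d T Λ zw zs hzwΛ ?_ i
  intro τ
  have h := (Divisor.principal (K := K) (F := F)).sub_mem (hzw τ) (hprin τ)
  have e : polyDiv d (zx τ) + polyDiv d (zy τ) + polyDiv d (zw τ) - (3 : ℤ) • polyDiv d 0 -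
      (polyDiv d (zx τ) + polyDiv d (zy τ) - polyDiv d (zs τ) - polyDiv d 0) =
      polyDiv d (zw τ) + polyDiv d (zs τ) - (2 : ℤ) • polyDiv d 0 := by
    have h3 : (3 : ℤ) • polyDiv d (0 : Fin (genusFF k Fk) → IsLocalRing.maximalIdeal 𝓡.V) =
        polyDiv d 0 + polyDiv d 0 + polyDiv d 0 := by
      rw [show (3 : ℤ) = 1 + 1 + 1 by norm_num, add_smul, add_smul, one_smul]
    have h2 : (2 : ℤ) • polyDiv d (0 : Fin (genusFF k Fk) → IsLocalRing.maximalIdeal 𝓡.V) =
        polyDiv d 0 + polyDiv d 0 := by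
      rw [show (2 : ℤ) = 1 + 1 by norm_num, add_smul, one_smul]
    rw [h3, h2]
    abel
  rwa [e] at h

/-- **ZGEN**, unconditionally. -/
theorem zgenStatement : ZgenStatement.{u₁, u₂, u₃, u₄, w} K F k Fk :=
  zgen_of Geo.geoStatement Det.detStatement

/-- **ZTRI**, unconditionally. -/
theorem ztriStatement : ZtriStatement.{u₁, u₂, u₃, u₄, w} K F k Fk :=
  ztri_of_zgen zgenStatement

/-- **ZNEG**, unconditionally. -/
theorem znegStatement : ZnegStatement.{u₁, u₂, u₃, u₄, w} K F k Fk :=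
  zneg_of_zgen zgenStatement

/-- **ZADD**, unconditionally: the frozen leaf `ZaddStatement` of `A3/H799/LocalSpec.lean`. -/
theorem zaddStatement : ZaddStatement.{u₁, u₂, u₃, u₄, w} K F k Fk :=
  zadd_of ztriStatement znegStatement

end Fermat.Agent.A3.H255.Zadd
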